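/-
Program MAZ (S15), G-side, brick (NUM') (helper4), file 0: the INTERFACE of the first-difference chain.

`IfaceN4` (Program N, S34) proves `InertiaTors`: `(τ - 1)² y = 0` for `τ` in an inertia group at
`q ∥ N` and `y ∈ J₀(N)(ℚ̄)` with `m • y = 0`, `q ∤ m`.  (NUM') of the MAZ G-side (`PFinAbstract90`, `hnum`)
needs the same for DIVISION POINTS of invariant classes:

  `InertiaDiv` : `τ • (m • y) = m • y  →  τ • τ • y + y = τ • y + τ • y`.

Kummer form (helper90, #2091 §1): `y = [D]`, `m D = D_z + div f` with `D_z` a `τ`-stable divisor, so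
`ord_v (τ f / f) = m (D(τ⁻¹ v) - D(v))` is divisible by `m` at every place, and the conclusion
`τ²f · f / (τ f)² = s^m` is literally the one of `IfaceN4.UBar`.  Hence the contracts

  InertiaDiv  ⇐(TOP)  `∀ UBar1 q N A`  ⇐(LVL)  `UBar1 q (auxLevel q N) A`
              ⇐(DESC) `UNumLarge1 q (M'·q) A`  ⇐(NUM)  CORE-nodal + MODEL + GAL + (INV)

are those of `IfaceN4` with ONE change: the hypothesis `m ∣ ord_v f` becomes `m ∣ ord_v (τ f / f)`.
-/
import Mathlib
import Fermat.Agent.ES.N34.IfaceN4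

set_option autoImplicit false
set_option synthInstance.maxHeartbeats 400000

open HahnSeries AlgebraicCurve ModularCurve

noncomputable section

namespace Fermat.Agent.ES.N34.IfaceD4

open Fermat.Agent.RED.Interface4 Fermat.Agent.ES.N34.IfaceN4

/-- **(NUM'), top form**: for `q ∥ N`, every `τ` in an inertia group at `q` satisfies `(τ - 1)² y = 0`
on the prime-to-`q` DIVISION POINTS of `τ`-invariant classes of `J₀(N)(ℚ̄)`. -/
def InertiaDiv : Prop :=
  ∀ (N : ℕ) [NeZero N] (q : ℕ), q.Prime → q ∣ N → ¬ q ^ 2 ∣ N →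
    ∀ P : ValuationSubring Qbar, P.LiesOverPrime q →
      ∀ τ ∈ P.inertiaSubgroupIn ℚ, ∀ m : ℕ, ¬ q ∣ m → ∀ y : JZero N, τ • (m • y) = m • y →
        τ • τ • y + y = τ • y + τ • y

/-- `InertiaDiv` contains `InertiaTors` (the case `m • y = 0`). -/
theorem inertiaTors_of_inertiaDiv (h : InertiaDiv) : InertiaTors :=
  fun N _ q hq hqN hq2 P hP τ hτ m hm y hy =>
    h N q hq hqN hq2 P hP τ hτ m hm y (by rw [hy]; exact smul_zero (A := JZero N) τ)

/-- **(U) over `ℚ̄` at level `N`, Kummer form, first-difference hypothesis.** -/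
def UBar1 (q N : ℕ) (A : ValuationSubring Qbar) : Prop :=
  ∀ τ ∈ A.inertiaSubgroupIn ℚ, ∀ m : ℕ, ¬ q ∣ m → ∀ f : Fbar N, f ≠ 0 →
    (∀ v : Place Qbar (Fbar N), (m : ℤ) ∣ v.ord (gB N τ f / f)) →
    ∃ s : Fbar N, s ^ m * (gB N τ f) ^ 2 = gB N τ (gB N τ f) * f

/-- **(U) over a finite normal `K ⊂ ℚ̄`, first-difference hypothesis**, conclusion up to a nonzero
constant of `K`; the support of `div f` consists of `K`-rational places. -/
def UNum1 (q N : ℕ) (A : ValuationSubring Qbar) (K : IntermediateField ℚ Qbar) [Normal ℚ K] : Prop :=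
  ∀ τ ∈ A.inertiaSubgroupIn ℚ, ∀ m : ℕ, ¬ q ∣ m → ∀ f : FK N K, f ≠ 0 →
    (∀ v : Place K (FK N K), (m : ℤ) ∣ v.ord (gK N K (τ.restrictNormal K) f / f)) →
    (∀ v : Place K (FK N K), v.ord f ≠ 0 → Function.Surjective (algebraMap K v.ResidueField)) →
    ∃ (c : K) (s : FK N K), c ≠ 0 ∧
      s ^ m * (gK N K (τ.restrictNormal K) f) ^ 2 =
        c • (gK N K (τ.restrictNormal K) (gK N K (τ.restrictNormal K) f) * f)

/-- `UNum1` over all sufficiently large finite normal subfields of `ℚ̄`. -/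
def UNumLarge1 (q N : ℕ) (A : ValuationSubring Qbar) : Prop :=
  ∃ K₀ : IntermediateField ℚ Qbar, FiniteDimensional ℚ K₀ ∧
    ∀ (K : IntermediateField ℚ Qbar) [Normal ℚ K], FiniteDimensional ℚ K → K₀ ≤ K → UNum1 q N A K

/-- **Chapter TOP** (Kummer ⇄ `JZero`, division points). -/
def TopStep1 : Prop :=
  (∀ (N : ℕ) [NeZero N] (q : ℕ), q.Prime → q ∣ N → ¬ q ^ 2 ∣ N →
    ∀ A : ValuationSubring Qbar, A.LiesOverPrime q → UBar1 q N A) → InertiaDiv

/-- **Chapter LVL** (level change `N ∣ auxLevel q N`). -/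
def LvlStep1 (q N : ℕ) (A : ValuationSubring Qbar) : Prop :=
  UBar1 q (auxLevel q N) A → UBar1 q N A

/-- **Chapter DESC** (descent to number fields, incl. (RAT)). -/
def DescStep1 (q N : ℕ) (A : ValuationSubring Qbar) : Prop :=
  UNumLarge1 q N A → UBar1 q N A

/-- **Chapter NUM** at the levels `M'·q`, `q ∤ M'`, `M'` divisible by the auxiliary base level. -/
def NumStep1 : Prop :=
  ∀ (q M' : ℕ) (A : ValuationSubring Qbar), q.Prime → ¬ q ∣ M' →
    (if q = 2 then 9 ∣ M' else 4 ∣ M') → A.LiesOverPrime q → UNumLarge1 q (M' * q) A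

/-- **The chain.** -/
theorem inertiaDiv_of_chain (htop : TopStep1)
    (hlvl : ∀ (N : ℕ) [NeZero N] (q : ℕ), q.Prime → q ∣ N → ¬ q ^ 2 ∣ N →
      ∀ A : ValuationSubring Qbar, A.LiesOverPrime q → LvlStep1 q N A)
    (hdesc : ∀ (q M' : ℕ) (A : ValuationSubring Qbar), q.Prime → ¬ q ∣ M' →
      (if q = 2 then 9 ∣ M' else 4 ∣ M') → A.LiesOverPrime q → DescStep1 q (M' * q) A)
    (hnum : NumStep1) : InertiaDiv := by
  refine htop fun N _ q hq hqN hq2 A hA => hlvl N q hq hqN hq2 A hA ?_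
  obtain ⟨M', hM', hqM', hc⟩ := auxLevel_eq_mul hq hqN hq2
  rw [hM']
  exact hdesc q M' A hq hqM' hc hA (hnum q M' A hq hqM' hc hA)

end Fermat.Agent.ES.N34.IfaceD4
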