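/-
Program MAZ (S15), G-side, brick (NUM') (helper4), file DESC: `IfaceD4.DescStep1 q N A`.

Twin of `GalDescent1.exists_rational_descent` + `DescN1.descStep` (helper1) with the first-difference
hypothesis `m ∣ ord_v (τ f / f)`.  The descent of `f` and of uniformisers at the places of
`supp div f` is verbatim (`e = 1` on the support).  New point: the divisibility
`m ∣ ord_w (τ_K f_K / f_K)` is needed at EVERY place `w` of `K·F_M`; it is nontrivial only if `w` or
`τ_K⁻¹ w` lies in the support of `f_K`; in the first case a place `v ∈ S` above `w` has `e = 1`, in the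
second case `v := τ • v'` does, for `v' ∈ S` above `τ_K⁻¹ w` (`ord_above_smul`: the base change is
Galois equivariant).
-/
import Mathlib
import Fermat.Agent.ES.N34.IfaceD4
import Fermat.Agent.ES.N34.GalDescent1

set_option autoImplicit false
set_option linter.unusedSectionVars false
set_option synthInstance.maxHeartbeats 400000

noncomputable section

namespace Fermat.Agent.ES.N34.DescD4

open AlgebraicCurve ModularCurve HahnSeries
open Fermat.Agent.X0 Fermat.Agent.RED.Interface4 Fermat.Agent.RED.DESC Fermat.Agent.RED.TOP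
open Fermat.Agent.ES.N34.IfaceN4 Fermat.Agent.ES.N34.IfaceD4 Fermat.Agent.ES.N34.GalPlaces1
  Fermat.Agent.ES.N34.GalRational1 Fermat.Agent.ES.N34.GalDescent1

/-- Shortcut to the instance found (slowly) by instance search (as in `M1/Car/RatMain25`). -/
local instance (priority := 5000) algKFK (M : ℕ) (K : IntermediateField ℚ Qbar) :
    Algebra K (FK M K) := SubalgebraClass.toAlgebra (FK M K)

/-- If `v'` lies above `w'` with `e = 1`, then `τ • v'` lies above `τ_K • w'` with `e = 1`. -/
theorem ord_above_smul (M : ℕ) (K : IntermediateField ℚ Qbar) [Normal ℚ K]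
    (τ : Qbar ≃ₐ[ℚ] Qbar) (w' : Place K (FK M K)) (v' : Place Qbar (Fbar M))
    (h : ∀ x : FK M K, v'.ord (PlaceExtend27.baseChangeHom M K x) = w'.ord x) (x : FK M K) :
    (galBar M τ • v').ord (PlaceExtend27.baseChangeHom M K x) =
      (gal M K (τ.restrictNormal K) • w').ord x := by
  have h1 := SemilinearAut.ord_smul (gal M K (τ.restrictNormal K)) w'
    ((gal M K (τ.restrictNormal K))⁻¹ • x)
  rw [smul_inv_smul] at h1
  rw [h1, ← h, ← SemilinearAut.ord_smul (galBar M τ) v', ← baseChangeHom_smul, smul_inv_smul]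

/-- **The descent package, first-difference hypothesis**: a nonzero `f ∈ ℚ̄·F_M` with
`m ∣ ord_v (τ f / f)` at all places descends to a finite NORMAL number field `K ⊇ K₀` such that
`m ∣ ord_w (τ_K f_K / f_K)` at all places of `K·F_M` and every place in the support of `div f_K` is
rational. -/
theorem exists_rational_descent_div (M : ℕ) [NeZero M] (K₀ : IntermediateField ℚ Qbar)
    [FiniteDimensional ℚ K₀] {f : Fbar M} (hf : f ≠ 0) (m : ℕ) (τ : Qbar ≃ₐ[ℚ] Qbar)
    (hord : ∀ v : Place Qbar (Fbar M), (m : ℤ) ∣ v.ord (galBar M τ • f / f)) :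
    ∃ K : IntermediateField ℚ Qbar, FiniteDimensional ℚ K ∧ ∃ _ : Normal ℚ K, K₀ ≤ K ∧
      ∃ fK : FK M K, PlaceExtend27.baseChangeHom M K fK = f ∧ fK ≠ 0 ∧
        (∀ w : Place K (FK M K), (m : ℤ) ∣ w.ord (gal M K (τ.restrictNormal K) • fK / fK)) ∧
        ∀ w : Place K (FK M K), w.ord fK ≠ 0 → IsRational w := by
  classical
  -- the support of `div f`
  obtain ⟨D, hD, -⟩ := FbarFacts20.exists_divisor_bar M hf
  let S : Finset (Place Qbar (Fbar M)) := D.support
  have hS : ∀ v, v ∉ S → v.ord f = 0 := by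
    intro v hv
    simp only [S, Finsupp.mem_support_iff, not_not] at hv
    rw [← hD v, hv]
  -- a field of definition of the places of the support
  obtain ⟨L₁, hL₁, hfixS⟩ := Fermat.Agent.ES.GAL.OpenStab12.hasLevel_forall_finset S
    (fun v σ => galBar M σ • v = v)
    (fun v _ => Fermat.Agent.ES.GAL.OpenStab12.hasLevel_place M v)
  have := hL₁
  -- uniformisers
  let unif : Place Qbar (Fbar M) → Fbar M := fun v =>
    (((FF.ffp_exists_irreducible v).choose : v.toValuationSubring) : Fbar M)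
  have hunif : ∀ v : Place Qbar (Fbar M), v.ord (unif v) = 1 := by
    intro v
    exact v.ord_coe_irreducible (FF.ffp_exists_irreducible v).choose_spec
  let T : Finset (LaurentSeries Qbar) :=
    insert (f : LaurentSeries Qbar) (S.image (fun v => ((unif v : Fbar M) : LaurentSeries Qbar)))
  have hT : ∀ x ∈ T, x ∈ Fbar M := by
    intro x hx
    simp only [T, Finset.mem_insert, Finset.mem_image] at hx
    rcases hx with rfl | ⟨v, -, rfl⟩
    · exact f.2
    · exact (unif v).2
  obtain ⟨K₁, hK₁, hfin₁, hdesc₁⟩ := DescMain27.exists_common_descent M (K₀ ⊔ L₁) T hT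
  have := hfin₁
  -- the normal closure
  have hgal : IsGalois ℚ Qbar := Fermat.Agent.Lib.FrobeniusExists.isGalois_Qbar
  have hnorQ : Normal ℚ Qbar := hgal.to_normal
  have halgQ : Algebra.IsAlgebraic ℚ Qbar := NumberFieldDVR27.isAlgebraic_Qbar
  let K : IntermediateField ℚ Qbar := IntermediateField.normalClosure ℚ K₁ Qbar
  have hK₁K : K₁ ≤ K := IntermediateField.le_normalClosure K₁
  have hfinK : FiniteDimensional ℚ K := normalClosure.is_finiteDimensional ℚ K₁ Qbar
  have hnorK : Normal ℚ K := normalClosure.normal ℚ K₁ Qbar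
  have hK₀K : K₀ ≤ K := (le_sup_left.trans hK₁).trans hK₁K
  have hL₁K : L₁ ≤ K := (le_sup_right.trans hK₁).trans hK₁K
  have hdesc : ∀ x ∈ T, ∃ x' : FK M K,
      ((PlaceExtend27.baseChangeHom M K x' : Fbar M) : LaurentSeries Qbar) = x := by
    intro x hx
    obtain ⟨x₁, hx₁, hxx₁⟩ := hdesc₁ x hx
    obtain ⟨x₂, hx₂, hxx₂⟩ := CoeffDescent1.exists_lift_of_le hK₁K hx₁
    exact ⟨⟨x₂, hx₂⟩, hxx₂.trans hxx₁⟩
  obtain ⟨fK, hfK⟩ := hdesc (f : LaurentSeries Qbar) (by simp [T])
  have hbf : PlaceExtend27.baseChangeHom M K fK = f := Subtype.ext hfK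
  have hfK0 : fK ≠ 0 := by
    rintro rfl
    rw [map_zero] at hbf
    exact hf hbf.symm
  -- places of `K·F_M` in the support
  have hplace : ∀ w : Place K (FK M K), w.ord fK ≠ 0 →
      ∃ v ∈ S, (∀ x : FK M K, v.ord (PlaceExtend27.baseChangeHom M K x) = w.ord x) ∧
        ∀ x : FK M K, PlaceExtend27.baseChangeHom M K x ∈ v.toValuationSubring ↔
          x ∈ w.toValuationSubring := by
    intro w hw
    obtain ⟨v, e, he, hve, hmem⟩ := PlaceExtend27.exists_place_above_mem M K w
    have he' : (e : ℤ) ≠ 0 := by exact_mod_cast he.ne'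
    have hvS : v ∈ S := by
      by_contra hv
      have h1 := hve fK
      rw [hbf, hS v hv] at h1
      exact hw ((mul_eq_zero.mp h1.symm).resolve_left he')
    obtain ⟨xu, hxu⟩ := hdesc ((unif v : Fbar M) : LaurentSeries Qbar) (by
      simp only [T, Finset.mem_insert, Finset.mem_image]
      exact Or.inr ⟨v, hvS, rfl⟩)
    have h3 := hve xu
    have h4 : PlaceExtend27.baseChangeHom M K xu = unif v := Subtype.ext hxu
    rw [h4, hunif v] at h3
    have he1 : (e : ℤ) = 1 := Int.eq_one_of_mul_eq_one_right (by positivity) h3.symm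
    refine ⟨v, hvS, fun x => ?_, hmem⟩
    rw [hve x, he1, one_mul]
  refine ⟨K, hfinK, hnorK, hK₀K, fK, hbf, hfK0, ?_, ?_⟩
  · intro w
    -- `e = 1` above `w` suffices
    have key : ∀ v : Place Qbar (Fbar M),
        (∀ x : FK M K, v.ord (PlaceExtend27.baseChangeHom M K x) = w.ord x) →
        (m : ℤ) ∣ w.ord (gal M K (τ.restrictNormal K) • fK / fK) := by
      intro v hv
      rw [← hv (gal M K (τ.restrictNormal K) • fK / fK), map_div₀, baseChangeHom_smul, hbf]
      exact hord v
    by_cases hw : w.ord fK = 0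
    · by_cases hw' : ((gal M K (τ.restrictNormal K))⁻¹ • w).ord fK = 0
      · have h0 : w.ord (gal M K (τ.restrictNormal K) • fK / fK) = 0 := by
          have := ord_fd (gal M K (τ.restrictNormal K)) w hfK0
          rw [fd_def] at this
          rw [this, hw, hw', sub_zero]
        rw [h0]
        exact dvd_zero _
      · obtain ⟨v', -, hve', -⟩ := hplace ((gal M K (τ.restrictNormal K))⁻¹ • w) hw'
        refine key (galBar M τ • v') fun x => ?_
        rw [ord_above_smul M K τ ((gal M K (τ.restrictNormal K))⁻¹ • w) v' hve' x, smul_inv_smul]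
    · obtain ⟨v, -, hve, -⟩ := hplace w hw
      exact key v hve
  · intro w hw
    obtain ⟨v, hvS, -, hmem⟩ := hplace w hw
    exact isRational_of_fixed M K w v hmem
      (fun σ hσ => hfixS σ (fun a ha => hσ a (hL₁K ha)) v hvS)

/-- **DESC, general level, first-difference hypothesis.** -/
theorem descStep1 (q N : ℕ) [NeZero N] (A : ValuationSubring Qbar) : IfaceD4.DescStep1 q N A := by
  rintro ⟨K₀, hK₀, hnum⟩
  intro τ hτ m hm f hf hord
  have hm0 : 0 < m := Nat.pos_of_ne_zero (fun h => hm (h ▸ dvd_zero q))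
  obtain ⟨K, hfinK, hnorK, hK₀K, fK, hbf, hfK0, hdiv, hrat⟩ :=
    exists_rational_descent_div N K₀ hf m τ hord
  obtain ⟨c, s, hc, hs⟩ := hnum K hfinK hK₀K τ hτ m hm fK hfK0 hdiv hrat
  -- an `m`-th root of the constant
  have hcQ : ((c : K) : Qbar) ≠ 0 := fun h => hc (Subtype.ext h)
  obtain ⟨d, hd⟩ := IsAlgClosed.exists_pow_nat_eq (((c : K) : Qbar)) hm0
  have hd0 : d ≠ 0 := by
    rintro rfl
    rw [zero_pow hm0.ne'] at hd
    exact hcQ hd.symm
  have hdF : algebraMap Qbar (Fbar N) d ≠ 0 := (map_ne_zero _).mpr hd0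
  have hg : ∀ x : FK N K, PlaceExtend27.baseChangeHom N K (gK N K (τ.restrictNormal K) x) =
      gB N τ (PlaceExtend27.baseChangeHom N K x) := fun x => baseChangeHom_smul N K τ x
  have h5 := congrArg (PlaceExtend27.baseChangeHom N K) hs
  rw [Algebra.smul_def, map_mul, map_mul, map_mul, map_pow, map_pow, hg, hg, hg, hbf,
    PlaceExtend27.baseChangeHom_algebraMap, ← hd, map_pow] at h5
  refine ⟨(algebraMap Qbar (Fbar N) d)⁻¹ * PlaceExtend27.baseChangeHom N K s, ?_⟩
  rw [mul_pow, inv_pow, mul_assoc, h5, ← mul_assoc, inv_mul_cancel₀ (pow_ne_zero m hdF), one_mul]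

/-- **DESC in the literal shape consumed by `IfaceD4.inertiaDiv_of_chain`.** -/
theorem descStep1_chain (q M' : ℕ) (A : ValuationSubring Qbar) (hq : q.Prime) (hqM' : ¬ q ∣ M')
    (_hc : if q = 2 then 9 ∣ M' else 4 ∣ M') (_hA : A.LiesOverPrime q) :
    IfaceD4.DescStep1 q (M' * q) A := by
  have hM' : M' ≠ 0 := fun h => hqM' (h ▸ dvd_zero q)
  have : NeZero (M' * q) := ⟨mul_ne_zero hM' hq.ne_zero⟩
  exact descStep1 q (M' * q) A

end Fermat.Agent.ES.N34.DescD4
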