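/-
Program MAZ (S15), G-side, brick (NUM') (helper4), file LVL: `IfaceD4.LvlStep1 q N A`.

Twin of `LvlN17.uBar_of_rootDescent / lvlStep` (helper17) with the first-difference hypothesis:
`ord_v (τ(ιf)/ιf) = e · ord_w (τf/f)` transfers the hypothesis up, and the second difference
`h = τ(τf/f)/(τf/f)` has `m ∣ ord_w h` because `ord_w (τ g) = ord_{τ⁻¹ w} g`, so `rootDescent` applies.
-/
import Mathlib
import Fermat.Agent.ES.N34.IfaceD4
import Fermat.Agent.ES.N34.LvlN17
import Fermat.Agent.ES.N34.SecondDiff6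

set_option autoImplicit false

open ModularCurve IntermediateField AlgebraicCurve HahnSeries

noncomputable section

namespace Fermat.Agent.ES.N34.LvlD4

open Fermat.Agent.RED.Interface4 Fermat.Agent.RED.BASE.Interface12 Fermat.Agent.RED.LVL
open Fermat.Agent.ES.N34.IfaceN4 Fermat.Agent.ES.N34.IfaceD4 Fermat.Agent.ES.N34.LvlN17

/-- **LVL, general form, first-difference hypothesis.** -/
theorem uBar1_of_rootDescent {q N M : ℕ} (A : ValuationSubring Qbar) (hle : Fbar N ≤ Fbar M)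
    (halg : ∀ x : Fbar M, IsAlgebraic (Fbar N) (x : LaurentSeries Qbar))
    (hrd : LevelStepAbs2.RootDescent N M hle) :
    UBar1 q M A → UBar1 q N A := by
  intro hU τ hτ m hm f hf hdiv
  have hm0 : 0 < m := Nat.pos_of_ne_zero (fun h => hm (h ▸ dvd_zero q))
  set ι := IntermediateField.inclusion hle with hι
  have hιinj : Function.Injective ι := (IntermediateField.inclusion hle).injective
  have hf' : ι f ≠ 0 := (map_ne_zero_iff _ hιinj).mpr hf
  -- transfer of the divisibility hypothesis to level `M`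
  have hdivM : ∀ v : Place Qbar (Fbar M), (m : ℤ) ∣ v.ord (gB M τ (ι f) / ι f) := by
    intro v
    obtain ⟨w, e, -, hord, -⟩ := PlaceRestrict2.exists_restrict_le hle halg v
    have hq : gB M τ (ι f) / ι f = ι (gB N τ f / f) := by
      rw [map_div₀, hι, gB_inclusion hle τ f]
    rw [hq, hord (gB N τ f / f)]
    exact Dvd.dvd.mul_left (hdiv w) _
  obtain ⟨s, hs⟩ := hU τ hτ m hm (ι f) hf' hdivM
  rw [hι, gB_inclusion hle τ f, gB_inclusion hle τ (gB N τ f), ← hι] at hs
  -- `h := τ²f · f / (τ f)²`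
  have h1 : gB N τ f ≠ 0 := (map_ne_zero_iff _ (gB N τ).injective).mpr hf
  have h2 : gB N τ (gB N τ f) ≠ 0 := (map_ne_zero_iff _ (gB N τ).injective).mpr h1
  set h : Fbar N := gB N τ (gB N τ f) * f / (gB N τ f) ^ 2 with hh
  have hsm : s ^ m = ι h := by
    rw [hh, map_div₀, map_mul, map_pow, eq_div_iff (pow_ne_zero 2 ((map_ne_zero_iff _ hιinj).mpr h1))]
    exact hs
  have hordh : ∀ w : Place Qbar (Fbar N), (m : ℤ) ∣ w.ord h := by
    intro w
    have hg0 : gB N τ f / f ≠ 0 := div_ne_zero h1 hf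
    have hτg0 : gB N τ (gB N τ f / f) ≠ 0 := (map_ne_zero_iff _ (gB N τ).injective).mpr hg0
    have hh' : h = gB N τ (gB N τ f / f) / (gB N τ f / f) := by
      rw [hh, map_div₀]
      field_simp
    rw [hh', Fermat.Agent.ES.N34.SecondDiff6.ord_quot w hτg0 hg0]
    exact dvd_sub (dvd_ord_gB N τ (m : ℤ) hdiv w) (hdiv w)
  obtain ⟨g, hg⟩ := hrd m hm0 h s hsm hordh
  refine ⟨g, ?_⟩
  apply hιinj
  rw [map_mul, map_pow, map_pow, map_mul]
  show ι g ^ m * _ = _
  rw [hg]
  exact hs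

/-- **LVL, degree form**: `M = N e`, `[Fbar M : Fbar N] < 2 e`. -/
theorem uBar1_of_degree (q N M e : ℕ) [NeZero N] [NeZero M] [NeZero e] (hM : M = N * e)
    (hdeg : relfinrank (Fbar N) (Fbar M) < 2 * e) (A : ValuationSubring Qbar) :
    UBar1 q M A → UBar1 q N A :=
  uBar1_of_rootDescent A (fbar_mono ⟨e, hM⟩) (LevelDegree17.isAlgebraic_of_mem ⟨e, hM⟩)
    (LevelStepMain19.rootDescent N M e hM hdeg)

/-- **LVL**: `UBar1 q (auxLevel q N) A → UBar1 q N A`, for every `q`, `N ≠ 0`, `A`. -/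
theorem lvlStep1 (q N : ℕ) [NeZero N] (A : ValuationSubring Qbar) : LvlStep1 q N A := by
  have := LevelDegree17.neZero_auxLevel q N
  obtain ⟨e, he⟩ := dvd_auxLevel q N
  have : NeZero e := ⟨fun h0 => NeZero.ne (auxLevel q N) (by rw [he, h0, mul_zero])⟩
  have hdiv : auxLevel q N / N = e := by
    rw [he]
    exact Nat.mul_div_cancel_left e (Nat.pos_of_ne_zero (NeZero.ne N))
  have hdeg := LevelDegree17.relfinrank_auxLevel_lt q N
  rw [hdiv] at hdeg
  exact uBar1_of_degree q N (auxLevel q N) e he hdeg A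

/-- LVL in the literal shape of the hypothesis `hlvl` of `IfaceD4.inertiaDiv_of_chain`. -/
theorem hlvl1 : ∀ (N : ℕ) [NeZero N] (q : ℕ), q.Prime → q ∣ N → ¬ q ^ 2 ∣ N →
    ∀ A : ValuationSubring Qbar, A.LiesOverPrime q → LvlStep1 q N A :=
  fun N _ q _ _ _ A _ => lvlStep1 q N A

end Fermat.Agent.ES.N34.LvlD4

end
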