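/-
Program MAZ (S15), G-side, brick (NUM') (helper4), file 6: **`UNum1` from MODEL + GAL.**

Twin of `NumReady13` (helper13) for the first-difference hypothesis.  The bundle
`NumReady13.NumReadyAt` / `NumReady13.NumReady` (MODEL's `NodalNumData` + GAL's `SigmaData`) is REUSED
unchanged; only the statement (U) changes (`UStmt1`), and the glue is `NumGlueD4.num_of_model_div`.
-/
import Mathlib
import Fermat.Agent.ES.N34.IfaceD4
import Fermat.Agent.ES.N34.NumReady13
import Fermat.Agent.ES.N34.NumGlueD4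

set_option autoImplicit false
set_option synthInstance.maxHeartbeats 400000

open HahnSeries AlgebraicCurve ModularCurve

noncomputable section

namespace Fermat.Agent.ES.N34.NumReadyD4

open Fermat.Agent.ES.N34.NodalCore13 Fermat.Agent.ES.N34.NodalCL13 Fermat.Agent.ES.N34.NumData13
  Fermat.Agent.ES.N34.GalGauss21 Fermat.Agent.ES.N34.GalChart21 Fermat.Agent.ES.N34.NumGlueD4
  Fermat.Agent.ES.N34.NumReady13

section Generic

variable {Kt : Type*} [Field Kt]

/-- **(U), first-difference hypothesis,** over `(Kt, E)` for a set `G` of semilinear automorphisms;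
conclusion up to a nonzero constant of `Kt`; the support of `div f` consists of rational places. -/
def UStmt1 (E : IntermediateField Kt (LaurentSeries Kt)) (q : ℕ) (G : Set (SemilinearAut Kt E)) :
    Prop :=
  ∀ g ∈ G, ∀ m : ℕ, ¬ q ∣ m → ∀ f : E, f ≠ 0 →
    (∀ v : Place Kt E, (m : ℤ) ∣ v.ord (SemilinearAut.toRingAut g f / f)) →
    (∀ v : Place Kt E, v.ord f ≠ 0 → Function.Surjective (algebraMap Kt v.ResidueField)) →
    ∃ (c : Kt) (s : E), c ≠ 0 ∧
      s ^ m * (SemilinearAut.toRingAut g f) ^ 2 =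
        c • (SemilinearAut.toRingAut g (SemilinearAut.toRingAut g f) * f)

variable {O : ValuationSubring Kt} {E : IntermediateField Kt (LaurentSeries Kt)}

/-- **(U), first-difference hypothesis, from the bundle.** -/
theorem uStmt1_of_ready [IsDiscreteValuationRing O] {q : ℕ} {G : Set (SemilinearAut Kt E)}
    (hinv : ∀ m : ℕ, ¬ q ∣ m → ∃ minv : O, (m : O) * minv = 1)
    (hfin : ∀ f : E, f ≠ 0 → {v : Place Kt E | v.ord f ≠ 0}.Finite)
    (h : NumReadyAt O E G) : UStmt1 E q G := by
  obtain ⟨π, t, B0, B1, O1, O2, hπ, D, hG⟩ := h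
  intro g hg m hm f hf hord hrat
  have hm0 : 0 < m := Nat.pos_of_ne_zero fun h => hm (h ▸ dvd_zero q)
  obtain ⟨minv, hminv⟩ := hinv m hm
  have := Fermat.Agent.RED.NumInst4.isScalarTower_OE O E
  exact num_of_model_div D hπ g (hG g hg) m hm0 minv hminv f hf hord (hfin f hf) hrat

end Generic

section Concrete

open Fermat.Agent.RED.Interface4 Fermat.Agent.RED.DESC Fermat.Agent.ES.N34.IfaceN4
  Fermat.Agent.ES.N34.IfaceD4 Fermat.Agent.ES.N34.GalBase21

/-- `UNum1` from `UStmt1` for `(K, K·F_N)` and the inertia group of `A`. -/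
theorem unum1_of_uStmt1 (q N : ℕ) (A : ValuationSubring Qbar) (K : IntermediateField ℚ Qbar)
    [Normal ℚ K] (h : UStmt1 (FK N K) q (inertiaSet N A K)) : UNum1 q N A K := by
  intro τ hτ m hm f hf hord hrat
  exact h (galK K N τ) ⟨τ, hτ, rfl⟩ m hm f hf hord hrat

/-- **`UNum1` over one `K` from the bundle.** -/
theorem unum1_of_ready {q : ℕ} (hq : q.Prime) (N : ℕ) [NeZero N] {A : ValuationSubring Qbar}
    (hA : A.LiesOverPrime q) (K : IntermediateField ℚ Qbar) [Normal ℚ K]
    [FiniteDimensional ℚ K] (h : NumReady N A K) : UNum1 q N A K := by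
  have hdvr : IsDiscreteValuationRing ↥(AK A K) :=
    NumberFieldDVR27.isDiscreteValuationRing_AK A K hq.ne_zero hA
  exact unum1_of_uStmt1 q N A K
    (uStmt1_of_ready (Fermat.Agent.RED.NumInst4.exists_inv_of_not_dvd hq hA K)
      (fun f hf => Fermat.Agent.ES.N34.GalFinite21.finite_support_ord_FK N K hf) h)

/-- **`UNumLarge1` from the bundle over all sufficiently large `K`.** -/
theorem unumLarge1_of_ready {q : ℕ} (hq : q.Prime) (N : ℕ) [NeZero N] {A : ValuationSubring Qbar}
    (hA : A.LiesOverPrime q)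
    (h : ∃ K₀ : IntermediateField ℚ Qbar, FiniteDimensional ℚ K₀ ∧
      ∀ (K : IntermediateField ℚ Qbar) [Normal ℚ K], FiniteDimensional ℚ K → K₀ ≤ K →
        NumReady N A K) : UNumLarge1 q N A := by
  obtain ⟨K₀, hK₀, hK⟩ := h
  exact ⟨K₀, hK₀, fun K _ hfd hle => unum1_of_ready hq N hA K (hK K hfd hle)⟩

end Concrete

end Fermat.Agent.ES.N34.NumReadyD4
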