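/-
Program MAZ (S15), G-side, brick (NUM') (helper4), file 7: **NUM, first-difference hypothesis** —
`IfaceD4.NumStep1`, unconditionally.

Twin of `NumN13` + `NumStep13` (helper13): the deliverable of MODEL (`ModelInput13.ModelInput`, closed
in `ModelEnd4.modelInput_four / modelInput_nine`) and GAL (`GalModel21.sigmaData`) are consumed
unchanged; only the final statement is `UNumLarge1`.
-/
import Mathlib
import Fermat.Agent.ES.N34.NumReadyD4
import Fermat.Agent.ES.N34.NumN13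
import Fermat.Agent.ES.N34.ModelEnd4

set_option autoImplicit false
set_option synthInstance.maxHeartbeats 400000

open HahnSeries AlgebraicCurve ModularCurve

noncomputable section

namespace Fermat.Agent.ES.N34.NumStepD4

open Fermat.Agent.RED.Interface4 Fermat.Agent.RED.DESC Fermat.Agent.RED.PUR.GaussGen8
  Fermat.Agent.RED.BASE.EtaQuot12
  Fermat.Agent.ES.N34.IfaceN4 Fermat.Agent.ES.N34.IfaceD4 Fermat.Agent.ES.N34.NumData13
  Fermat.Agent.ES.N34.GalBase21 Fermat.Agent.ES.N34.GalChart21 Fermat.Agent.ES.N34.ModelDefs9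
  Fermat.Agent.ES.N34.NumReady13 Fermat.Agent.ES.N34.NumReadyD4 Fermat.Agent.ES.N34.ModelInput13

/-- **`UNumLarge1` at level `M' * q` from MODEL.** -/
theorem unumLarge1_of_model {q : ℕ} (hq : q.Prime) {A : ValuationSubring Qbar}
    (hA : A.LiesOverPrime q) (n e M' : ℕ) [NeZero n] [NeZero M'] [NeZero q]
    (h : ModelInput n e q M' A) : UNumLarge1 q (M' * q) A := by
  obtain ⟨K₀, hK₀, hK⟩ := h
  refine unumLarge1_of_ready hq (M' * q) hA ⟨K₀, hK₀, fun K _ hfd hle => ?_⟩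
  obtain ⟨ht, hE, hmodel⟩ := hK K hfd hle
  have hdvr : IsDiscreteValuationRing ↥(AK A K) :=
    NumberFieldDVR27.isDiscreteValuationRing_AK A K hq.ne_zero hA
  obtain ⟨ϖ, hϖ⟩ := IsDiscreteValuationRing.exists_irreducible ↥(AK A K)
  have hπ : IsUnif (AK A K) ϖ := isUnif_of_irreducible (AK A K) hϖ
  refine ⟨ϖ, tN q ht, B0 A q ht, B1 A q ht, O1 M' q hπ hE, O2 M' q hπ hE, hϖ, hmodel ϖ hπ, ?_⟩
  rintro g ⟨τ, hτ, rfl⟩
  exact Fermat.Agent.ES.N34.GalModel21.sigmaData hτ hπ hE n e (tN q ht) (coe_tN q ht)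

/-- **NUM, first-difference hypothesis, from MODEL**: `(n, e) = (4, 8)` for odd `q`, `(9, 3)` for
`q = 2`. -/
theorem numStep1_of_model
    (hodd : ∀ (q M' : ℕ) [NeZero M'] [NeZero q] (A : ValuationSubring Qbar), q.Prime → ¬ q ∣ M' →
      q ≠ 2 → 4 ∣ M' → A.LiesOverPrime q → ModelInput 4 8 q M' A)
    (htwo : ∀ (M' : ℕ) [NeZero M'] (A : ValuationSubring Qbar), ¬ 2 ∣ M' →
      9 ∣ M' → A.LiesOverPrime 2 → ModelInput 9 3 2 M' A) : NumStep1 := by
  intro q M' A hq hqM hc hA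
  have hM' : NeZero M' := ⟨fun h => hqM (h ▸ dvd_zero q)⟩
  have hq' : NeZero q := ⟨hq.ne_zero⟩
  by_cases h2 : q = 2
  · subst h2
    rw [if_pos rfl] at hc
    exact unumLarge1_of_model hq hA 9 3 M' (htwo M' A hqM hc hA)
  · rw [if_neg h2] at hc
    exact unumLarge1_of_model hq hA 4 8 M' (hodd q M' A hq hqM h2 hc hA)

/-- **NUM, first-difference hypothesis** (`IfaceD4.NumStep1`), unconditionally. -/
theorem numStep1 : NumStep1 :=
  numStep1_of_model
    (fun q M' _ _ A hq hqM h2 h4 hA =>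
      Fermat.Agent.ES.N34.ModelEnd4.modelInput_four q M' A hq hqM h2 h4 hA)
    (fun M' _ A h2 h9 hA => Fermat.Agent.ES.N34.ModelEnd4.modelInput_nine M' A h2 h9 hA)

end Fermat.Agent.ES.N34.NumStepD4
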