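/-
Program MAZ (S15), G-side, brick (NUM') (helper4), file TOP: the Kummer ⇄ `JZero` bridge for DIVISION
POINTS, `IfaceD4.TopStep1`.

`y = [D] ∈ J₀(N)(ℚ̄)` with `τ • (m • y) = m • y`.  The class `z = m • y` is fixed by the group
`Γ = ⟨τ⟩`, which fixes the cusp `∞`, so `z = [D_z]` with `τ D_z = D_z`
(`StableRep25.exists_stable_rep`, helper25's Riemann–Roch trick).  Then `m D - D_z = div f`, hence
`ord_v (τ f / f) = m (D(τ⁻¹v) - D(v))` is divisible by `m` at all places: `UBar1` applies and gives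
`τ²f · f / (τ f)² = s^m`; comparing divisors (`TorsionInertia12.ord_of_uBar_eq`), `m (τ²D - 2τD + D)
= m div s`, and divisors are torsion-free.
-/
import Mathlib
import Fermat.Agent.ES.N34.IfaceD4
import Fermat.Agent.ES.N34.TorsionInertia12
import Fermat.Agent.M1.Car.RatInf25
import Fermat.Agent.M1.Car.StableRep25
import Fermat.Agent.RR.LHypGen

set_option autoImplicit false
set_option synthInstance.maxHeartbeats 400000

open HahnSeries AlgebraicCurve ModularCurve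

noncomputable section

namespace Fermat.Agent.ES.N34.TopD4

open Fermat.Agent.RED.Interface4 Fermat.Agent.ES.N34.IfaceN4 Fermat.Agent.ES.N34.IfaceD4
  Fermat.Agent.ES.N34.TorsionInertia12

/-- **The bridge for division points**: `UBar1` gives `(τ - 1)² y = 0` for every `y ∈ J₀(N)(ℚ̄)` such
that `m • y` is `τ`-invariant, `q ∤ m`. -/
theorem inertiaDiv_of_uBar1 {q N : ℕ} [NeZero N] {A : ValuationSubring Qbar} (h : UBar1 q N A)
    (τ : Qbar ≃ₐ[ℚ] Qbar) (hτ : τ ∈ A.inertiaSubgroupIn ℚ) (m : ℕ) (hm : ¬ q ∣ m)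
    (y : JZero N) (hy : τ • (m • y) = m • y) :
    τ • τ • y + y = τ • y + τ • y := by
  have hm0 : m ≠ 0 := fun h0 => hm (h0 ▸ dvd_zero q)
  have hmZ : (m : ℤ) ≠ 0 := by exact_mod_cast hm0
  -- `Γ = ⟨τ⟩` acting on `ℚ̄·F_N`
  let ρ : ↥(Subgroup.zpowers τ) →* SemilinearAut Qbar (Fbar N) :=
    (arithmeticGalois (modularFunctionFieldFull N)).comp (Subgroup.zpowers τ).subtype
  have hfixz : ∀ σ : ↥(Subgroup.zpowers τ), ρ σ • (m • y) = m • y := by
    intro σ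
    have h1 : (σ : Qbar ≃ₐ[ℚ] Qbar) ∈ MulAction.stabilizer (Qbar ≃ₐ[ℚ] Qbar) (m • y) :=
      (Subgroup.zpowers_le.mpr (MulAction.mem_stabilizer_iff.mpr hy)) σ.2
    exact MulAction.mem_stabilizer_iff.mp h1
  -- a `τ`-stable representative of `z = m • y`
  have H := Fermat.Agent.RR.LHypGen.lHyp_of_isGen (Fermat.Agent.M1.Car.FibreEmb25.hxj N)
  have hRI : Fermat.Agent.M1.Car.StableRep25.RiemannIneq Qbar (Fbar N) :=
    Fermat.Agent.RR.LHypGen.riemann_inequality_of_isGen (Fermat.Agent.M1.Car.FibreEmb25.hxj N)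
  obtain ⟨Dz, hDz, hstab⟩ := Fermat.Agent.M1.Car.StableRep25.exists_stable_rep ρ H hRI
    (Fermat.Agent.M1.Car.RatInf25.pInf N)
    (fun σ => Fermat.Agent.M1.Car.RatInf25.smul_pInf N σ.1) (m • y) hfixz
  have hτDz : gal N τ • (Dz : Divisor Qbar (Fbar N)) = (Dz : Divisor Qbar (Fbar N)) :=
    hstab ⟨τ, Subgroup.mem_zpowers τ⟩
  have hDzv : ∀ v : Place Qbar (Fbar N),
      (Dz : Divisor Qbar (Fbar N)) ((gal N τ)⁻¹ • v) = (Dz : Divisor Qbar (Fbar N)) v := by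
    intro v
    have h1 := SemilinearAut.divisor_smul_apply (gal N τ) (Dz : Divisor Qbar (Fbar N)) v
    rw [hτDz] at h1
    exact h1.symm
  obtain ⟨⟨D, hD⟩, rfl⟩ := Pic0.mk_surjective y
  -- `m • D - D_z` is principal
  have hprin : -(Dz : Divisor Qbar (Fbar N)) + m • D ∈
      Divisor.principal (K := Qbar) (F := Fbar N) := by
    have h1 : Pic0.mk Dz = Pic0.mk (m • (⟨D, hD⟩ : Divisor.degZero (K := Qbar) (F := Fbar N))) :=
      hDz.trans rfl
    have h2 := (QuotientAddGroup.eq).mp h1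
    rw [AddSubgroup.mem_addSubgroupOf] at h2
    simpa using h2
  obtain ⟨f, hf0, hfD⟩ := hprin
  have hfD' : ∀ v : Place Qbar (Fbar N),
      v.ord f = (m : ℤ) * D v - (Dz : Divisor Qbar (Fbar N)) v := by
    intro v
    have h1 := hfD v
    rw [Finsupp.add_apply, Finsupp.neg_apply, Finsupp.smul_apply, nsmul_eq_mul] at h1
    rw [← h1]
    ring
  -- the first-difference hypothesis
  have hdiv : ∀ v : Place Qbar (Fbar N), (m : ℤ) ∣ v.ord (gB N τ f / f) := by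
    intro v
    rw [div_eq_mul_inv, v.ord_mul (gB_ne_zero τ hf0) (inv_ne_zero hf0), v.ord_inv, ord_gB τ v f,
      hfD' v, hfD' ((gal N τ)⁻¹ • v), hDzv v]
    exact ⟨D ((gal N τ)⁻¹ • v) - D v, by ring⟩
  obtain ⟨s, hs⟩ := h τ hτ m hm f hf0 hdiv
  have hs0 : s ≠ 0 := by
    intro h0
    rw [h0, zero_pow hm0, zero_mul] at hs
    exact mul_ne_zero (gB_ne_zero τ (gB_ne_zero τ hf0)) hf0 hs.symm
  -- the goal in `Pic0`
  show gal N τ • gal N τ • Pic0.mk ⟨D, hD⟩ + Pic0.mk ⟨D, hD⟩ =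
    gal N τ • Pic0.mk ⟨D, hD⟩ + gal N τ • Pic0.mk ⟨D, hD⟩
  rw [SemilinearAut.pic0_smul_mk, SemilinearAut.pic0_smul_mk, ← Pic0.mk_add, ← Pic0.mk_add]
  symm
  refine (QuotientAddGroup.eq).mpr ?_
  rw [AddSubgroup.mem_addSubgroupOf]
  refine ⟨s, hs0, fun v => ?_⟩
  -- compare `m •` both sides
  apply mul_left_cancel₀ hmZ
  rw [ord_of_uBar_eq τ hm0 hf0 hs v, hfD' v, hfD' ((gal N τ)⁻¹ • v),
    hfD' ((gal N τ)⁻¹ • (gal N τ)⁻¹ • v), hDzv ((gal N τ)⁻¹ • v), hDzv v]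
  simp only [AddSubgroup.coe_add, AddSubgroup.coe_neg, Finsupp.coe_add, Finsupp.coe_neg,
    Pi.add_apply, Pi.neg_apply, SemilinearAut.coe_degZeroSMulHom, SemilinearAut.divisor_smul_apply]
  ring

/-- **Chapter TOP, division points.** -/
theorem topStep1 : TopStep1 :=
  fun h N _ q hq hqN hq2 P hP τ hτ m hm y hy =>
    inertiaDiv_of_uBar1 (h N q hq hqN hq2 P hP) τ hτ m hm y hy

end Fermat.Agent.ES.N34.TopD4
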