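/-
Program MAZ (S15), G-side, brick (NUM') (helper4), FINAL file: **`IfaceD4.InertiaDiv`, unconditionally**,
and its corollaries in the shapes consumed by `MAZ/Desc/PFinAbstract90` (`hnum`).

  InertiaDiv : for `q ∥ N`, `τ` in an inertia group at `q`, `q ∤ m`, `y ∈ J₀(N)(ℚ̄)`:
      `τ • (m • y) = m • y  →  τ • τ • y + y = τ • y + τ • y`.

Chain (`IfaceD4.inertiaDiv_of_chain`): TOP `TopD4.topStep1`, LVL `LvlD4.hlvl1`, DESC
`DescD4.descStep1_chain`, NUM `NumStepD4.numStep1`.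
-/
import Mathlib
import Fermat.Agent.ES.N34.IfaceD4
import Fermat.Agent.ES.N34.TopD4
import Fermat.Agent.ES.N34.LvlD4
import Fermat.Agent.ES.N34.DescD4
import Fermat.Agent.ES.N34.NumStepD4

set_option autoImplicit false

open HahnSeries AlgebraicCurve ModularCurve

namespace Fermat.Agent.ES.N34.InertiaDiv4

open Fermat.Agent.RED.Interface4 Fermat.Agent.ES.N34.IfaceN4 Fermat.Agent.ES.N34.IfaceD4

/-- **(NUM'), unconditionally.** -/
theorem inertiaDiv : InertiaDiv :=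
  inertiaDiv_of_chain Fermat.Agent.ES.N34.TopD4.topStep1 Fermat.Agent.ES.N34.LvlD4.hlvl1
    Fermat.Agent.ES.N34.DescD4.descStep1_chain Fermat.Agent.ES.N34.NumStepD4.numStep1

/-- **(NUM') in the literal shape of `PFinAbstract90.index_mul_card_range_le` (`hnum`)**: for `q ∥ N`,
`τ` in an inertia group at `q`, `q ∤ n`, and `Y` any set of `τ`-fixed classes:
`n • y ∈ Y → τ • (τ • y - y) = τ • y - y`. -/
theorem hnum_of_fixed {N : ℕ} [NeZero N] {q : ℕ} (hq : q.Prime) (hqN : q ∣ N) (hq2 : ¬ q ^ 2 ∣ N)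
    {P : ValuationSubring Qbar} (hP : P.LiesOverPrime q) {τ : Qbar ≃ₐ[ℚ] Qbar}
    (hτ : τ ∈ P.inertiaSubgroupIn ℚ) {n : ℕ} (hn : ¬ q ∣ n) (y : JZero N)
    (hy : τ • (n • y) = n • y) : τ • (τ • y - y) = τ • y - y := by
  have h := inertiaDiv N q hq hqN hq2 P hP τ hτ n hn y hy
  rw [smul_sub (A := JZero N), sub_eq_sub_iff_add_eq_add]
  exact h

/-- The same for a prime power `r ^ k`, `r ≠ q` prime, and Galois-invariant (rational) classes. -/
theorem hnum_rational {N : ℕ} [NeZero N] {q : ℕ} (hq : q.Prime) (hqN : q ∣ N) (hq2 : ¬ q ^ 2 ∣ N)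
    {P : ValuationSubring Qbar} (hP : P.LiesOverPrime q) {r : ℕ} (hr : r.Prime) (hrq : r ≠ q)
    (k : ℕ) (y : JZero N) (hy : ∀ σ : Qbar ≃ₐ[ℚ] Qbar, σ • (r ^ k • y) = r ^ k • y)
    (τ : Qbar ≃ₐ[ℚ] Qbar) (hτ : τ ∈ P.inertiaSubgroupIn ℚ) :
    τ • (τ • y - y) = τ • y - y :=
  hnum_of_fixed hq hqN hq2 hP hτ
    (fun hd => hrq ((Nat.prime_dvd_prime_iff_eq hq hr).mp (hq.dvd_of_dvd_pow hd)).symm) y (hy τ)

end Fermat.Agent.ES.N34.InertiaDiv4
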