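/-
Program MAZ (S15), G-side, brick (NUM') (helper4), file 3: from SECTIONS to `NodeDatum`, division
point form.

Twin of `NodeGlue6.nodeDatum_of_sections` (helper6) with the hypothesis `m ∣ ord_v (σ f / f)` instead
of `m ∣ ord_v f`; the node hypothesis (N-ii) is `NodeGlue6.node_hyp_of_sections`, unchanged, and the
assembly is `NodeAsmD4.nodeDatum_of_places_div`.
-/
import Mathlib
import Fermat.Agent.ES.N34.NodeGlue6
import Fermat.Agent.ES.N34.NodeAsmD4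

set_option autoImplicit false
set_option linter.unusedSectionVars false

namespace Fermat.Agent.ES.N34.NodeGlueD4

open AlgebraicCurve Fermat.Agent.X0.FF
open Fermat.Agent.ES.N34.NodalCore13 Fermat.Agent.ES.N34.NodalCL13
  Fermat.Agent.ES.N34.GalGauss21 Fermat.Agent.ES.N34.NodeAsm6
  Fermat.Agent.ES.N34.LocNodePlace6 Fermat.Agent.ES.N34.NodeChart11
  Fermat.Agent.ES.N34.NodeChartGal11 Fermat.Agent.ES.N34.NodeGlue6
  Fermat.Agent.ES.N34.NodeAsmD4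

variable {R K F : Type*} [CommRing R] [IsDomain R] [IsDiscreteValuationRing R] [Field K] [Field F]
  [Algebra R K] [Algebra K F] [Algebra R F] [IsScalarTower R K F]

/-- **L4 (final form) for a division point: `NodeDatum` at a two-branch point from `NodeCoords`, the
inertial automorphism and the sections of the places in the support of `f`.** -/
theorem nodeDatum_of_sections_div (π : R) (hπ : Irreducible π) (t : F) (B : Subalgebra R F)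
    (O1 O2 : ValuationSubring F)
    (ht : t ∈ B) (noethB : IsNoetherianRing B) (fracR : IsFractionRing R K)
    (dvrR : ∀ r : R, r ≠ 0 → ∃ (k : ℕ) (v : Rˣ), r = π ^ k * v)
    (pi_ne : algebraMap R F π ≠ 0)
    (intcl : ∀ x : F, IsIntegral B x → x ∈ B)
    (int0 : ∀ x ∈ B, IsIntegral (Algebra.adjoin R {t}) x)
    (frac : ∀ x : F, ∃ a ∈ B, ∃ b ∈ B, b ≠ 0 ∧ x * b = a)
    (leO1 : ∀ x ∈ B, x ∈ O1) (leO2 : ∀ x ∈ B, x ∈ O2)
    (unif1 : ∀ x ∈ O1, x⁻¹ ∉ O1 → ∃ c ∈ O1, x = algebraMap R F π * c)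
    (unif2 : ∀ x ∈ O2, x⁻¹ ∉ O2 → ∃ c ∈ O2, x = algebraMap R F π * c)
    (arch1 : ∀ x : F, ∃ k : ℕ, algebraMap R F π ^ k * x ∈ O1)
    (arch2 : ∀ x : F, ∃ k : ℕ, algebraMap R F π ^ k * x ∈ O2)
    (sat : ∀ b ∈ B, ∀ c : F, c ∈ O1 → c ∈ O2 → b = algebraMap R F π * c → c ∈ B)
    (𝔪 : Ideal B) [h𝔪p : 𝔪.IsPrime]
    -- level-0 node coordinates (`NodeCoords π B 𝔪`)
    (x₀ y₀ w₀ d₀ : B) (hx₀ : x₀ ∈ 𝔪) (hy₀ : y₀ ∈ 𝔪)
    (hgen₀ : ∀ b ∈ 𝔪, ∃ d, d ∉ 𝔪 ∧ d * b ∈ Ideal.span {algebraMap R B π, x₀, y₀})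
    (hd₀ : d₀ ∉ 𝔪) (hmul₀ : d₀ * (x₀ * y₀) = algebraMap R B π * w₀)
    -- the inertial automorphism
    (σ : SemilinearAut K F)
    (hσ1 : IsInertial O1 (algebraMap R F π) (SemilinearAut.toRingAut σ))
    (hσ2 : IsInertial O2 (algebraMap R F π) (SemilinearAut.toRingAut σ))
    (σR : R ≃+* R) (σB : B ≃+* B)
    (hσ : ∀ r : R, σB (algebraMap R B r) = algebraMap R B (σR r))
    (ε : Rˣ) (hπσ : σR π = π * ε) (hσ𝔪 : ∀ b, σB b ∈ 𝔪 ↔ b ∈ 𝔪)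
    (hthr : ∀ v : Place K F, Thr B 𝔪 v → Thr B 𝔪 (σ⁻¹ • v))
    (htrans : ∀ (v : Place K F) (ev : B →ₐ[R] R), IsPointOf B ev v →
      IsPointOf B (NodeGal11.conj σR σB hσ ev) (σ • v))
    (hinj : ∀ (v w : Place K F) (ev : B →ₐ[R] R), IsPointOf B ev v → IsPointOf B ev w → v = w)
    -- the function
    (m : ℕ) (hm : 0 < m) (f : F) (hf : f ≠ 0)
    (hmf : ∀ v : Place K F, (m : ℤ) ∣ v.ord (σ • f / f))
    (hfin : {v : Place K F | Thr B 𝔪 v ∧ v.ord f ≠ 0}.Finite)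
    (hsec : ∀ v : Place K F, Thr B 𝔪 v → v.ord f ≠ 0 →
      ∃ ev : B →ₐ[R] R, IsPointOf B ev v ∧ ∀ b, b ∈ 𝔪 ↔ π ∣ ev b) :
    NodeDatum π B O1 O2 m
      (GalGauss21.secondDiff (SemilinearAut.toRingAut σ) (SemilinearAut.toRingAut σ) f) 𝔪 := by
  have hπK : algebraMap R K π ≠ 0 := by
    intro h
    apply pi_ne
    rw [IsScalarTower.algebraMap_apply R K F, h, map_zero]
  have frac' : ∀ z : F, ∃ a b : B, b ≠ 0 ∧ z * (b : F) = (a : F) := by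
    intro z
    obtain ⟨a, ha, b, hb, hb0, hab⟩ := frac z
    exact ⟨⟨a, ha⟩, ⟨b, hb⟩, fun h => hb0 (congrArg Subtype.val h), hab⟩
  have := noethB
  refine nodeDatum_of_places_div π t B O1 O2 ht noethB fracR dvrR pi_ne intcl int0 frac leO1 leO2
    unif1 unif2 arch1 arch2 sat 𝔪 σ hσ1 hσ2 hthr m hm f hf hmf hfin ?_
  intro v hv hord
  obtain ⟨ev, hev, h𝔪⟩ := hsec v hv hord
  exact node_hyp_of_sections π hπ hπK B frac' 𝔪 x₀ y₀ w₀ d₀ hx₀ hy₀ hgen₀ hd₀ hmul₀ σ σR σB hσ ε hπσ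
    hσ𝔪 htrans hinj v ev hev h𝔪

end Fermat.Agent.ES.N34.NodeGlueD4
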