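/-
Program MAZ (S15), G-side, brick (NUM') (helper4), file 4: **`NodeDatum` at a two-branch point from
rationality of the support, division point form.**

Twin of `NodeSec10.nodeDatum_of_rational` (helper10) with the hypothesis `m ∣ ord_v (σ f / f)` instead
of `m ∣ ord_v f`; the wiring (`PlaceSec10` + `SigmaRes15`) is verbatim, the assembly is
`NodeGlueD4.nodeDatum_of_sections_div`.
-/
import Mathlib
import Fermat.Agent.ES.N34.NodeSec10
import Fermat.Agent.ES.N34.NodeGlueD4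

set_option autoImplicit false
set_option linter.unusedSectionVars false

namespace Fermat.Agent.ES.N34.NodeSecD4

open AlgebraicCurve Fermat.Agent.ES.N34.NodalCore13 Fermat.Agent.ES.N34.NodalCL13
  Fermat.Agent.ES.N34.GalGauss21 Fermat.Agent.ES.N34.NodeAsm6 Fermat.Agent.ES.N34.SigmaRes15
  Fermat.Agent.ES.N34.PlaceSec10

variable {R K F : Type*} [CommRing R] [IsDomain R] [IsDiscreteValuationRing R] [Field K] [Field F]
  [Algebra R K] [Algebra K F] [Algebra R F] [IsScalarTower R K F]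

/-- **(U3) at a node, from rationality, for a division point.** -/
theorem nodeDatum_of_rational_div (π : R) (hπ : Irreducible π) (t : F) (B : Subalgebra R F)
    (O1 O2 : ValuationSubring F)
    (ht : t ∈ B) (noethB : IsNoetherianRing B) (fracR : IsFractionRing R K)
    (dvrR : ∀ r : R, r ≠ 0 → ∃ (k : ℕ) (v : Rˣ), r = π ^ k * v)
    (pi_ne : algebraMap R F π ≠ 0)
    (pi_nonunit1 : (algebraMap R F π)⁻¹ ∉ O1)
    (intcl : ∀ x : F, IsIntegral B x → x ∈ B)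
    (int0 : ∀ x ∈ B, IsIntegral (Algebra.adjoin R {t}) x)
    (frac : ∀ x : F, ∃ a ∈ B, ∃ b ∈ B, b ≠ 0 ∧ x * b = a)
    (leO1 : ∀ x ∈ B, x ∈ O1) (leO2 : ∀ x ∈ B, x ∈ O2)
    (unif1 : ∀ x ∈ O1, x⁻¹ ∉ O1 → ∃ c ∈ O1, x = algebraMap R F π * c)
    (unif2 : ∀ x ∈ O2, x⁻¹ ∉ O2 → ∃ c ∈ O2, x = algebraMap R F π * c)
    (arch1 : ∀ x : F, ∃ k : ℕ, algebraMap R F π ^ k * x ∈ O1)
    (arch2 : ∀ x : F, ∃ k : ℕ, algebraMap R F π ^ k * x ∈ O2)
    (sat : ∀ b ∈ B, ∀ c : F, c ∈ O1 → c ∈ O2 → b = algebraMap R F π * c → c ∈ B)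
    (𝔪 : Ideal B) [h𝔪p : 𝔪.IsPrime] (hπ𝔪 : algebraMap R B π ∈ 𝔪)
    -- level-0 node coordinates (`NodeCoords π B 𝔪`)
    (x₀ y₀ w₀ d₀ : B) (hx₀ : x₀ ∈ 𝔪) (hy₀ : y₀ ∈ 𝔪)
    (hgen₀ : ∀ b ∈ 𝔪, ∃ d, d ∉ 𝔪 ∧ d * b ∈ Ideal.span {algebraMap R B π, x₀, y₀})
    (hd₀ : d₀ ∉ 𝔪) (hmul₀ : d₀ * (x₀ * y₀) = algebraMap R B π * w₀)
    -- the inertial automorphism
    (σ : SemilinearAut K F)
    (hσ1 : IsInertial O1 (algebraMap R F π) (SemilinearAut.toRingAut σ))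
    (hσ2 : IsInertial O2 (algebraMap R F π) (SemilinearAut.toRingAut σ))
    (hB : ∀ x : F, x ∈ B ↔ SemilinearAut.toRingAut σ x ∈ B)
    (hsemi : ∀ r : R, ∃ r' : R,
      SemilinearAut.toRingAut σ (algebraMap R F r) = algebraMap R F r')
    (hsemi' : ∀ r : R, ∃ r' : R,
      (SemilinearAut.toRingAut σ).symm (algebraMap R F r) = algebraMap R F r')
    -- the function
    (m : ℕ) (hm : 0 < m) (f : F) (hf : f ≠ 0)
    (hmf : ∀ v : Place K F, (m : ℤ) ∣ v.ord (σ • f / f))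
    (hfin : {v : Place K F | Thr B 𝔪 v ∧ v.ord f ≠ 0}.Finite)
    (hrat : ∀ v : Place K F, Thr B 𝔪 v → v.ord f ≠ 0 →
      Function.Surjective (algebraMap K v.ResidueField)) :
    NodeDatum π B O1 O2 m
      (GalGauss21.secondDiff (SemilinearAut.toRingAut σ) (SemilinearAut.toRingAut σ) f) 𝔪 := by
  have hinjRF : Function.Injective (algebraMap R F) := by
    rw [IsScalarTower.algebraMap_eq R K F]
    exact (algebraMap K F).injective.comp (IsFractionRing.injective R K)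
  set s : F ≃+* F := SemilinearAut.toRingAut σ with hs
  set σB : B ≃+* B := sigmaB B s hB with hσB
  set σR : R ≃+* R := sigmaR s hinjRF hsemi hsemi' with hσR
  have hσ : ∀ r : R, σB (algebraMap R B r) = algebraMap R B (σR r) :=
    sigmaB_algebraMap B s hB hinjRF hsemi hsemi'
  obtain ⟨ε, hε⟩ := sigmaR_pi' π O1 (fun r => leO1 _ (B.algebraMap_mem r)) pi_nonunit1 dvrR s
    hinjRF hsemi hsemi' hσ1.map_p
  have hcongr : ∀ x : F, x ∈ O1 → x ∈ O2 → PiO π O1 O2 (s x - x) :=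
    piO_of_sub_mem π O1 O2 pi_ne s hσ1.sub_mem hσ2.sub_mem
  have hσ𝔪 : ∀ b, σB b ∈ 𝔪 ↔ b ∈ 𝔪 :=
    sigmaB_mem_iff π B O1 O2 leO1 leO2 sat s hB hcongr 𝔪 hπ𝔪
  have hcoe : ∀ b : B, ((σB b : B) : F) = σ • (b : F) := fun _ => rfl
  exact NodeGlueD4.nodeDatum_of_sections_div π hπ t B O1 O2 ht noethB fracR dvrR pi_ne intcl int0
    frac leO1 leO2 unif1 unif2 arch1 arch2 sat 𝔪 x₀ y₀ w₀ d₀ hx₀ hy₀ hgen₀ hd₀ hmul₀ σ hσ1 hσ2 σR σB
    hσ ε hε hσ𝔪
    (fun v hv => thr_inv_smul B 𝔪 σ σB hcoe hσ𝔪 v hv)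
    (fun v ev hev => isPointOf_conj B σ σR σB hσ hcoe v ev hev)
    (fun v w ev hv hw => place_eq_of_isPointOf π t B ht noethB fracR dvrR pi_ne intcl int0 frac
      v w ev hv hw)
    m hm f hf hmf hfin
    (fun v hv hord => exists_section_of_rational π hπ t B ht fracR int0 𝔪 h𝔪p.ne_top hπ𝔪 v
      (hrat v hv hord) hv)

end Fermat.Agent.ES.N34.NodeSecD4
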