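/-
Program MAZ (S15), G-side, brick (NUM') (helper4), file 5: **abstract NUM for a division point** and
the glue MODEL + GAL + L3/L4 ⊢ NUM.

Twins of `NumAbs13.num_abs`, `NumGlue13.nodeDatum_B0 / nodeDatum_B1 / num_of_model` (helper13) with the
hypothesis `m ∣ ord_v (g f / f)` (all `v`) instead of `m ∣ ord_v f`:
(U1) is `GalGauss21.secondDiff_sub_one_two` (no hypothesis on `f`), (U2) is `GalPlaces1.dvd_ord_fd`
applied to the first difference, (U3) is `NodeSecD4.nodeDatum_of_rational_div`.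
-/
import Mathlib
import Fermat.Agent.ES.N34.NumGlue13
import Fermat.Agent.ES.N34.NodeSecD4

set_option autoImplicit false
set_option linter.unusedSectionVars false

namespace Fermat.Agent.ES.N34.NumGlueD4

open AlgebraicCurve
open Fermat.Agent.ES.N34.NodalCore13 Fermat.Agent.ES.N34.NodalCL13 Fermat.Agent.ES.N34.NumData13
  Fermat.Agent.ES.N34.GalGauss21 Fermat.Agent.ES.N34.GalChart21 Fermat.Agent.ES.N34.NumAbs13
  Fermat.Agent.ES.N34.GalPlaces1

section Abs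

variable {R K F : Type*} [CommRing R] [Field K] [Field F] [Algebra R K] [Algebra K F]
  [Algebra R F] [IsScalarTower R K F]

/-- **Abstract NUM for a division point.** -/
theorem num_abs_div {π : R} {t : F} {B0 B1 : Subalgebra R F} {O1 O2 : ValuationSubring F}
    (D : NodalNumData R K F π t B0 B1 O1 O2) (g : SemilinearAut K F)
    (hg1 : IsInertial O1 (algebraMap R F π) (SemilinearAut.toRingAut g))
    (hg2 : IsInertial O2 (algebraMap R F π) (SemilinearAut.toRingAut g))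
    (m : ℕ) (hm : 0 < m) (minv : R) (hminv : (m : R) * minv = 1) (f : F) (hf : f ≠ 0)
    (hord : ∀ v : Place K F, (m : ℤ) ∣ v.ord (g • f / f))
    (hU3_0 : ∀ 𝔪 : Ideal B0, 𝔪.IsMaximal → algebraMap R B0 π ∈ 𝔪 →
      ¬ OffBranch π B0 O1 𝔪 → ¬ OffBranch π B0 O2 𝔪 → NodeCoords π B0 𝔪 →
        NodeDatum π B0 O1 O2 m
          (secondDiff (SemilinearAut.toRingAut g) (SemilinearAut.toRingAut g) f) 𝔪)
    (hU3_1 : ∀ 𝔪 : Ideal B1, 𝔪.IsMaximal → algebraMap R B1 π ∈ 𝔪 →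
      ¬ OffBranch π B1 O1 𝔪 → ¬ OffBranch π B1 O2 𝔪 → NodeCoords π B1 𝔪 →
        NodeDatum π B1 O1 O2 m
          (secondDiff (SemilinearAut.toRingAut g) (SemilinearAut.toRingAut g) f) 𝔪) :
    ∃ (c : K) (s : F), c ≠ 0 ∧
      s ^ m * (SemilinearAut.toRingAut g f) ^ 2 =
        c • (SemilinearAut.toRingAut g (SemilinearAut.toRingAut g f) * f) := by
  set σ := SemilinearAut.toRingAut g with hσ
  have M := D.model
  -- (U1)
  have hu1 : PiO π O1 O2 (secondDiff σ σ f - 1) :=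
    secondDiff_sub_one_two π O1 O2 hg1 hg1 hg2 hg2 M.pi_ne M.unif1 M.unif2 M.arch1 M.arch2 hf
  -- (U2)
  have hu2 : ∀ v : Place K F, (m : ℤ) ∣ v.ord (secondDiff σ σ f) := fun v =>
    dvd_ord_fd g (m : ℤ) (fd_ne_zero hf) hord v
  obtain ⟨s, hs0, c, hc0, hsc⟩ := D.cl m hm minv hminv (secondDiff σ σ f) hu1 hu2 hU3_0 hU3_1
  refine ⟨c, s, hc0, ?_⟩
  rw [hsc, Algebra.smul_def, mul_assoc, NumAbs13.secondDiff_self_mul σ hf]

end Abs

variable {R K F : Type*} [CommRing R] [IsDomain R] [IsDiscreteValuationRing R] [Field K] [Field F]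
  [Algebra R K] [Algebra K F] [Algebra R F] [IsScalarTower R K F]

variable {π : R} {t : F} {B0 B1 : Subalgebra R F} {O1 O2 : ValuationSubring F}

/-- (U3) on the chart `B0`, division point form. -/
theorem nodeDatum_B0_div (D : NodalNumData R K F π t B0 B1 O1 O2) (hπ : Irreducible π)
    (g : SemilinearAut K F) (hσ : SigmaData π t O1 O2 (SemilinearAut.toRingAut g))
    (m : ℕ) (hm : 0 < m) (f : F) (hf : f ≠ 0)
    (hord : ∀ v : Place K F, (m : ℤ) ∣ v.ord (g • f / f))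
    (hfin : {v : Place K F | v.ord f ≠ 0}.Finite)
    (hrat : ∀ v : Place K F, v.ord f ≠ 0 → Function.Surjective (algebraMap K v.ResidueField))
    (𝔪 : Ideal B0) (h𝔪 : 𝔪.IsMaximal) (hπ𝔪 : algebraMap R B0 π ∈ 𝔪)
    (hnc : NodeCoords π B0 𝔪) :
    NodeDatum π B0 O1 O2 m
      (secondDiff (SemilinearAut.toRingAut g) (SemilinearAut.toRingAut g) f) 𝔪 := by
  have M := D.model
  have := h𝔪.isPrime
  obtain ⟨x₀, y₀, hx₀, hy₀, ⟨d₀, hd₀, w₀, hmul₀⟩, hgen₀⟩ := hnc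
  exact NodeSecD4.nodeDatum_of_rational_div (K := K) π hπ t B0 O1 O2 M.t_mem D.noeth0 D.fracR
    D.dvrR M.pi_ne M.pi_nonunit1 M.intcl0 M.int0 D.frac0 M.le_O1_0 M.le_O2_0 M.unif1 M.unif2
    M.arch1 M.arch2 M.sat0 𝔪 hπ𝔪 x₀ y₀ w₀ d₀ hx₀ hy₀ hgen₀ hd₀ hmul₀ g hσ.inert1 hσ.inert2
    (fun x => (hσ.mem_B0_iff M x).symm) hσ.semilin hσ.semilin_symm m hm f hf hord
    (hfin.subset fun v hv => hv.2) (fun v _ hv => hrat v hv)

/-- (U3) on the chart `B1`, division point form. -/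
theorem nodeDatum_B1_div (D : NodalNumData R K F π t B0 B1 O1 O2) (hπ : Irreducible π)
    (g : SemilinearAut K F) (hσ : SigmaData π t O1 O2 (SemilinearAut.toRingAut g))
    (m : ℕ) (hm : 0 < m) (f : F) (hf : f ≠ 0)
    (hord : ∀ v : Place K F, (m : ℤ) ∣ v.ord (g • f / f))
    (hfin : {v : Place K F | v.ord f ≠ 0}.Finite)
    (hrat : ∀ v : Place K F, v.ord f ≠ 0 → Function.Surjective (algebraMap K v.ResidueField))
    (𝔪 : Ideal B1) (h𝔪 : 𝔪.IsMaximal) (hπ𝔪 : algebraMap R B1 π ∈ 𝔪)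
    (hnc : NodeCoords π B1 𝔪) :
    NodeDatum π B1 O1 O2 m
      (secondDiff (SemilinearAut.toRingAut g) (SemilinearAut.toRingAut g) f) 𝔪 := by
  have M := D.model
  have := h𝔪.isPrime
  obtain ⟨x₀, y₀, hx₀, hy₀, ⟨d₀, hd₀, w₀, hmul₀⟩, hgen₀⟩ := hnc
  exact NodeSecD4.nodeDatum_of_rational_div (K := K) π hπ t⁻¹ B1 O1 O2 M.tinv_mem D.noeth1 D.fracR
    D.dvrR M.pi_ne M.pi_nonunit1 M.intcl1 M.int1 D.frac1 M.le_O1_1 M.le_O2_1 M.unif1 M.unif2
    M.arch1 M.arch2 M.sat1 𝔪 hπ𝔪 x₀ y₀ w₀ d₀ hx₀ hy₀ hgen₀ hd₀ hmul₀ g hσ.inert1 hσ.inert2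
    (fun x => (hσ.mem_B1_iff M x).symm) hσ.semilin hσ.semilin_symm m hm f hf hord
    (hfin.subset fun v hv => hv.2) (fun v _ hv => hrat v hv)

/-- **NUM from MODEL + GAL** (rational support), division point form. -/
theorem num_of_model_div (D : NodalNumData R K F π t B0 B1 O1 O2) (hπ : Irreducible π)
    (g : SemilinearAut K F) (hσ : SigmaData π t O1 O2 (SemilinearAut.toRingAut g))
    (m : ℕ) (hm : 0 < m) (minv : R) (hminv : (m : R) * minv = 1) (f : F) (hf : f ≠ 0)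
    (hord : ∀ v : Place K F, (m : ℤ) ∣ v.ord (g • f / f))
    (hfin : {v : Place K F | v.ord f ≠ 0}.Finite)
    (hrat : ∀ v : Place K F, v.ord f ≠ 0 → Function.Surjective (algebraMap K v.ResidueField)) :
    ∃ (c : K) (s : F), c ≠ 0 ∧
      s ^ m * (SemilinearAut.toRingAut g f) ^ 2 =
        c • (SemilinearAut.toRingAut g (SemilinearAut.toRingAut g f) * f) :=
  num_abs_div D g hσ.inert1 hσ.inert2 m hm minv hminv f hf hord
    (fun 𝔪 h𝔪 hπ𝔪 _ _ hnc =>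
      nodeDatum_B0_div D hπ g hσ m hm f hf hord hfin hrat 𝔪 h𝔪 hπ𝔪 hnc)
    (fun 𝔪 h𝔪 hπ𝔪 _ _ hnc =>
      nodeDatum_B1_div D hπ g hσ m hm f hf hord hfin hrat 𝔪 h𝔪 hπ𝔪 hnc)

end Fermat.Agent.ES.N34.NumGlueD4
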